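import Fermat.Agent.S53.Dict
import Fermat.Prelude.Def_GaloisRep_DeformationCondition

/-!
# Row S59, cell NMP, leaf RED-T — core (helper437)

`redT_core`: a deformation condition satisfied by a representation `ρ` over a complete Noetherian
local `𝒪`-algebra `T` (with residue field `k = 𝒪/𝔪`) is satisfied by any model `ρ̄` of its residual
representation.  Proof: test `𝒟 ρ` on the Artinian quotient `T → k_T` (`iff_forall_surjective`),
identify `ρ ⊗ k_T` with `ρ̄ ⊗_k k_T` through the matrix dictionary of `S53/Dict`, and descend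
along the injection `k → k_T` (`of_baseChangeAlong_injective`).

Imports only `S53/Dict` + Prelude; the verbatim leaf is in `RedT.lean`.
-/

set_option autoImplicit false

open IsLocalRing

namespace Fermat.Agent.S59.NMP.H437

open Fermat.Agent.S53

section Field

variable {k : Type} [Field k]

/-- An equivalence of residual representations is an equivalence of the associated
adic representations over the field. -/
def ofResidualEquiv437 {ρ₁ ρ₂ : ResidualGaloisRep k} (e : ResidualGaloisRep.Equiv ρ₁ ρ₂) :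
    GaloisRepAdic.Equiv (GaloisRepAdic.ofResidualGaloisRep ρ₁)
      (GaloisRepAdic.ofResidualGaloisRep ρ₂) :=
  { toLinearEquiv := e.toLinearEquiv
    map_apply := e.map_apply }

/-- `ofResidualGaloisRep` commutes with base change along a homomorphism of fields
(definitionally). -/
def ofResidualBaseChange437 {k' : Type} [Field k'] (ψ : k →+* k') (hψ : IsLocalHom ψ)
    (ρb : ResidualGaloisRep k) :
    GaloisRepAdic.Equiv (GaloisRepAdic.ofResidualGaloisRep (ρb.baseChangeAlong ψ))
      ((GaloisRepAdic.ofResidualGaloisRep ρb).baseChangeAlong ψ hψ) :=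
  letI : Algebra k k' := ψ.toAlgebra
  { toLinearEquiv := LinearEquiv.refl k' (TensorProduct k k' ρb.V)
    map_apply := fun _ _ => rfl }

/-- The matrix models: `toAdic` over a field is `ofResidualGaloisRep` of `toRes`. -/
theorem toAdic_isEquiv_ofResidual_toRes437 (r : GQ →* M2 k) (hr : MatCont r)
    (hr' : GaloisFactorsThroughFiniteLevel r) :
    (toAdic r hr).IsEquiv (GaloisRepAdic.ofResidualGaloisRep (toRes r hr')) :=
  ⟨⟨LinearEquiv.refl k (Fin 2 → k), fun _ _ => rfl⟩⟩

end Field

/-- A field with an `𝒪`-algebra structure whose structure map is onto is an Artinian test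
algebra. -/
theorem isArtinianTestAlgebra_of_field437 (𝒪 : Type) [CommRing 𝒪] [IsLocalRing 𝒪]
    (K : Type) [Field K] [Algebra 𝒪 K] (hloc : IsLocalHom (algebraMap 𝒪 K))
    (hsurj : Function.Surjective (algebraMap 𝒪 K)) :
    GaloisRep.IsArtinianTestAlgebra 𝒪 K where
  isLocalHom := hloc
  residue_surjective := (residue_surjective (R := K)).comp hsurj
  isArtinian := inferInstance

/-- **RED-T**, core form. -/
theorem redT_core (𝒪 : Type) [CommRing 𝒪] [IsLocalRing 𝒪]
    (𝒟 : ∀ ⦃A : Type⦄ [CommRing A] [IsLocalRing A] [Algebra 𝒪 A], GaloisRepAdic A → Prop)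
    (h𝒟 : GaloisRep.IsDeformationCondition 𝒪 𝒟)
    (T : Type) [CommRing T] [IsLocalRing T] [IsNoetherianRing T]
    [IsAdicComplete (maximalIdeal T) T] [Algebra 𝒪 T] [IsLocalHom (algebraMap 𝒪 T)]
    (hT : Function.Surjective (residue T ∘ algebraMap 𝒪 T))
    (ρ : GaloisRepAdic T) (ρbar : ResidualGaloisRep (ResidueField 𝒪))
    (hres : ρ.residual.IsEquiv (ρbar.baseChangeAlong (ResidueField.map (algebraMap 𝒪 T))))
    (hD : 𝒟 ρ) : 𝒟 (GaloisRepAdic.ofResidualGaloisRep ρbar) := by
  -- the two test algebras `k = 𝒪/𝔪` and `k_T = T/𝔪_T`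
  have hk : GaloisRep.IsArtinianTestAlgebra 𝒪 (ResidueField 𝒪) :=
    isArtinianTestAlgebra_of_field437 𝒪 (ResidueField 𝒪)
      (inferInstanceAs (IsLocalHom (residue 𝒪))) residue_surjective
  have hlocT : IsLocalHom (algebraMap 𝒪 (ResidueField T)) := by
    have h1 : algebraMap 𝒪 (ResidueField T) = (residue T).comp (algebraMap 𝒪 T) := rfl
    rw [h1]
    exact RingHom.isLocalHom_comp _ _
  have hsurjT : Function.Surjective (algebraMap 𝒪 (ResidueField T)) := hT
  have hkT : GaloisRep.IsArtinianTestAlgebra 𝒪 (ResidueField T) :=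
    isArtinianTestAlgebra_of_field437 𝒪 (ResidueField T) hlocT hsurjT
  -- the quotient map `q : T → k_T` as an `𝒪`-algebra map
  let q : T →ₐ[𝒪] ResidueField T := IsScalarTower.toAlgHom 𝒪 T (ResidueField T)
  have hqcoe : (q : T →+* ResidueField T) = residue T := rfl
  have hq : IsLocalHom (q : T →+* ResidueField T) := by
    rw [hqcoe]; infer_instance
  have hqsurj : Function.Surjective q := residue_surjective
  have h1 : 𝒟 (ρ.baseChangeAlong (q : T →+* ResidueField T) hq) :=
    (h𝒟.iff_forall_surjective inferInstance hT ρ).1 hD hkT q hq hqsurj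
  -- the injection `φ : k → k_T` as an `𝒪`-algebra map
  let φ : ResidueField 𝒪 →ₐ[𝒪] ResidueField T :=
    { (ResidueField.map (algebraMap 𝒪 T)) with
      commutes' := fun a => by
        show ResidueField.map (algebraMap 𝒪 T) (residue 𝒪 a) = residue T (algebraMap 𝒪 T a)
        exact ResidueField.map_residue _ _ }
  have hφcoe : (φ : ResidueField 𝒪 →+* ResidueField T) = ResidueField.map (algebraMap 𝒪 T) := rfl
  have hφ : IsLocalHom (φ : ResidueField 𝒪 →+* ResidueField T) := by
    rw [hφcoe]; infer_instance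
  have hφinj : Function.Injective φ := (φ : ResidueField 𝒪 →+* ResidueField T).injective
  refine h𝒟.of_baseChangeAlong_injective hk hkT φ hφ hφinj ?_
  refine h𝒟.of_isEquiv hkT ?_ h1
  -- the equivalence `ρ ⊗ k_T ≃ ρ̄ ⊗_k k_T`
  obtain ⟨r, hr, ⟨e0⟩⟩ := exists_toAdic ρ
  obtain ⟨e1⟩ := baseChangeAlong_toAdic (q : T →+* ResidueField T) hq r hr
  obtain ⟨e2⟩ := toAdic_isEquiv_ofResidual_toRes437
    (mapRep (q : T →+* ResidueField T) r) (hr.map _ hq) hr.factors_residue
  obtain ⟨e3⟩ := residual_toAdic r hr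
  obtain ⟨e4⟩ := hres
  exact ⟨(((e0.baseChangeAlong _ hq).trans e1).trans
    (e2.trans (ofResidualEquiv437 (e3.symm.trans (e0.residual.symm.trans e4))))).trans
    (ofResidualBaseChange437 (φ : ResidueField 𝒪 →+* ResidueField T) hφ ρbar)⟩

end Fermat.Agent.S59.NMP.H437
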