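import Fermat.Agent.S59.NMP.Spec
import Fermat.Agent.S59.NMP.H437.RedTCore

/-!
# Row S59, cell NMP, leaf RED-T (subtask 737) — helper437

`redT : NMP.RedTStatement`, VERBATIM: a deformation condition satisfied by a representation over
a complete Noetherian local `𝒪`-algebra `T` is satisfied by (any model of) its residual
representation.  The proof is `redT_core` of `RedTCore.lean` (imports only `S53/Dict`).
-/

set_option autoImplicit false

open IsLocalRing

namespace Fermat.Agent.S59.NMP.H437

/-- **RED-T** (frozen leaf of `S59/NMP/Spec.lean`). -/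
theorem redT : Fermat.Agent.S59.NMP.RedTStatement := by
  intro 𝒪 _ _ _ _ 𝒟 h𝒟 T _ _ _ _ _ _ hT ρ ρbar hres hD
  exact redT_core 𝒪 𝒟 h𝒟 T hT ρ ρbar hres hD

end Fermat.Agent.S59.NMP.H437
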